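/-
S55 / 32c-B-RELDICT (helper24): adapter of the relative dictionary `RelDict24` into the vocabulary
of helper53's local assembly maps (`SecondInst53.Assembly`: `Cmp`, `InPl`, `fixK`, `phi`, `Phi`),
and the LOCAL SURJECTIVITY of `Phi_v`.

* `inPl_iff_placeOf`   : `InPl v g ↔ placeOf (D.ℓ v) g = v`;
* `exists_inPl`, `exists_inPl_of_prime`, `inPl_unique`, `inPl_iff_of_inPl` : the sets `InPl v` are
  the `D_q`–`Gal(L/K)` double cosets, they are nonempty, cover `Gal(L/ℚ)` and are disjoint above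
  one prime;
* `mem_locField_of_invariant`, `exists_Phi_eq_on_inPl` : a `Gal(L/K)`-invariant element of
  `Jq ℓ_v L` coincides with some `Phi v z` on the double coset of `v`.
-/
import Mathlib
import Fermat.Prelude.Def_GaloisRep_CompletionBridge
import Fermat.Agent.S55.Idele73.Basic
import Fermat.Agent.S55.PlaceCount50.Dict
import Fermat.Agent.S55.SecondInst53.PlaceModel
import Fermat.Agent.S55.SecondInst53.Assembly
import Fermat.Agent.S55.RelDict24.PlaceExtra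

set_option autoImplicit false

open scoped NNReal Pointwise
open IsDedekindDomain NumberField

noncomputable section

namespace Fermat.Agent.S55.RelDict24

open Fermat.Agent.S55.Idele73.Basic Fermat.Agent.S55.PlaceCount50
open Fermat.Agent.S55.SecondInst53.PlaceModel Fermat.Agent.S55.SecondInst53.Assembly

variable {L : IntermediateField ℚ Qbar} [Normal ℚ L] [FiniteDimensional ℚ L]
variable {K : IntermediateField ℚ Qbar} [FiniteDimensional ℚ K] (hKL : K ≤ L)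
variable (D : PlaceData ↥K)

/-- **(A1)** `g` lies in the double coset of `v` iff it cuts out the place `v`. -/
theorem inPl_iff_placeOf (v : HeightOneSpectrum (𝓞 K)) (g : GalL L) :
    InPl hKL D v g ↔ placeOf hKL (D.ℓ v) g = v :=
  (placeOf_eq_iff_exists_local hKL D v g).symm

/-- **(A2)** every place has a (nonempty) double coset. -/
theorem exists_inPl (v : HeightOneSpectrum (𝓞 K)) : ∃ g : GalL L, InPl hKL D v g := by
  obtain ⟨g, hg⟩ := exists_placeOf_eq hKL D v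
  exact ⟨g, (inPl_iff_placeOf hKL D v g).mpr hg⟩

/-- **(A3)** every `g` lies in the double coset of some place above `q`. -/
theorem exists_inPl_of_prime (q : ℕ) [Fact q.Prime] (g : GalL L) :
    ∃ v : HeightOneSpectrum (𝓞 K), D.ℓ v = q ∧ InPl hKL D v g := by
  obtain ⟨v, hq, τ, hτ⟩ := exists_place hKL D q g
  exact ⟨v, hq, τ, hτ⟩

/-- **(A4)** the double cosets of the places above one prime are disjoint. -/
theorem inPl_unique {v v' : HeightOneSpectrum (𝓞 K)} {g : GalL L} (h : InPl hKL D v g)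
    (h' : InPl hKL D v' g) (hℓ : D.ℓ v = D.ℓ v') : v = v' := by
  obtain ⟨τ, hτ⟩ := h
  obtain ⟨τ', hτ'⟩ := h'
  exact place_unique' hKL D g v v' hℓ τ τ' hτ hτ'

/-- **(A5)** `InPl v` is ONE `D_q`–`Gal(L/K)` double coset. -/
theorem inPl_iff_of_inPl {v : HeightOneSpectrum (𝓞 K)} {g : GalL L} (h : InPl hKL D v g)
    (g' : GalL L) :
    InPl hKL D v g' ↔ ∃ (τ : Gq (D.ℓ v)) (s : GalL L), s ∈ fixK L K hKL ∧
      g' = locHom (D.ℓ v) L τ * g * s := by
  constructor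
  · intro h'
    have e : placeOf hKL (D.ℓ v) g = placeOf hKL (D.ℓ v) g' := by
      rw [(inPl_iff_placeOf hKL D v g).mp h, (inPl_iff_placeOf hKL D v g').mp h']
    obtain ⟨τ, s, hs, e'⟩ := (placeOf_eq_iff hKL (D.ℓ v) g g').mp e
    exact ⟨τ, s, hs, e'⟩
  · rintro ⟨τ, s, hs, rfl⟩
    exact (h.mul_left τ).mul_right hs

/-! ### Local surjectivity of `Phi v` -/

/-- `PadicAlgCl q / ℚ_q` is Galois. -/
theorem isGalois_padicAlgCl' (q : ℕ) [Fact q.Prime] : IsGalois ℚ_[q] (PadicAlgCl q) :=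
  IsAlgClosure.isGalois ℚ_[q] (PadicAlgCl q)

variable {hKL D}

omit [FiniteDimensional ℚ L] in
/-- if `τ'` fixes `K_v` pointwise then `τ τ' τ⁻¹` stabilises `g` modulo `Gal(L/K)`. -/
theorem conj_mem_fixK {v : HeightOneSpectrum (𝓞 K)} {g : GalL L} {τ : Gq (D.ℓ v)}
    (h : Cmp hKL D v g τ) {τ' : Gq (D.ℓ v)} (hτ' : τ' ∈ (D.locField v).fixingSubgroup) :
    g⁻¹ * locHom (D.ℓ v) L (τ * τ' * τ⁻¹) * g ∈ fixK L K hKL := by
  intro x
  have h1 : τ' (D.σ v x) = D.σ v x :=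
    (IntermediateField.mem_fixingSubgroup_iff _ _).mp hτ' _
      (IntermediateField.subset_adjoin _ _ ⟨x, rfl⟩)
  have h2 : locHom (D.ℓ v) L (τ * τ' * τ⁻¹) (g (incl L K hKL x)) = g (incl L K hKL x) := by
    apply iotaL_injective (D.ℓ v) L
    rw [iotaL_locHom, h x, AlgEquiv.mul_apply, AlgEquiv.mul_apply, AlgEquiv.aut_inv,
      AlgEquiv.symm_apply_apply, h1]
  rw [AlgEquiv.mul_apply, AlgEquiv.mul_apply, h2, AlgEquiv.aut_inv, AlgEquiv.symm_apply_apply]

omit [FiniteDimensional ℚ L] in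
/-- **(A6)** the value at `g` of a `Gal(L/K)`-invariant element of `Jq ℓ_v L` lies in `τ (K_v)`. -/
theorem mem_locField_of_invariant {v : HeightOneSpectrum (𝓞 K)} {g : GalL L} {τ : Gq (D.ℓ v)}
    (h : Cmp hKL D v g τ) (f : (Jq (D.ℓ v) L).V)
    (hf : ∀ s ∈ fixK L K hKL, (Jq (D.ℓ v) L).ρ s f = f) :
    τ.symm ((Additive.toMul (f.1 g) : (PadicAlgCl (D.ℓ v))ˣ) : PadicAlgCl (D.ℓ v)) ∈
      D.locField v := by
  haveI := isGalois_padicAlgCl' (D.ℓ v)
  rw [← InfiniteGalois.fixedField_fixingSubgroup (D.locField v),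
    IntermediateField.mem_fixedField_iff]
  intro τ' hτ'
  set y : PadicAlgCl (D.ℓ v) :=
    ((Additive.toMul (f.1 g) : (PadicAlgCl (D.ℓ v))ˣ) : PadicAlgCl (D.ℓ v)) with hy
  -- `τ τ' τ⁻¹` fixes `y`
  have hs := conj_mem_fixK h hτ'
  have e1 : f.1 (locHom (D.ℓ v) L (τ * τ' * τ⁻¹) * g) = f.1 g := by
    have := congrArg (fun f' : (Jq (D.ℓ v) L).V => f'.1 g) (hf _ hs)
    have e : g * (g⁻¹ * locHom (D.ℓ v) L (τ * τ' * τ⁻¹) * g) =
        locHom (D.ℓ v) L (τ * τ' * τ⁻¹) * g := by group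
    change f.1 (g * (g⁻¹ * locHom (D.ℓ v) L (τ * τ' * τ⁻¹) * g)) = f.1 g at this
    rwa [e] at this
  have e2 : f.1 (locHom (D.ℓ v) L (τ * τ' * τ⁻¹) * g) =
      (localUnits (D.ℓ v)).ρ (τ * τ' * τ⁻¹) (f.1 g) := f.2 _ _
  have e3 : (τ * τ' * τ⁻¹) y = y := by
    have := e2.symm.trans e1
    have := congrArg (fun a : Additive (PadicAlgCl (D.ℓ v))ˣ =>
      ((Additive.toMul a : (PadicAlgCl (D.ℓ v))ˣ) : PadicAlgCl (D.ℓ v))) this
    exact this
  rw [AlgEquiv.mul_apply, AlgEquiv.mul_apply, AlgEquiv.aut_inv] at e3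
  have := congrArg τ.symm e3
  rwa [AlgEquiv.symm_apply_apply] at this

/-- **(A7) local surjectivity**: on the double coset of `v`, every `Gal(L/K)`-invariant element of
`Jq ℓ_v L` is of the form `Phi v z`. -/
theorem exists_Phi_eq_on_inPl (v : HeightOneSpectrum (𝓞 K)) (f : (Jq (D.ℓ v) L).V)
    (hf : ∀ s ∈ fixK L K hKL, (Jq (D.ℓ v) L).ρ s f = f) :
    ∃ z : (D.locField v)ˣ, ∀ g : GalL L, InPl hKL D v g → f.1 g = (Phi hKL D v z).1 g := by
  obtain ⟨g₀, τ₀, h₀⟩ := exists_inPl hKL D v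
  set u : (PadicAlgCl (D.ℓ v))ˣ := Additive.toMul (f.1 g₀) with hu
  have hmem := mem_locField_of_invariant h₀ f hf
  -- the unit `z = τ₀⁻¹ (f g₀)` of `K_v`
  have hne : (⟨τ₀.symm (u : PadicAlgCl (D.ℓ v)), hmem⟩ : D.locField v) ≠ 0 := by
    intro h0
    have := congrArg (fun t : D.locField v => (t : PadicAlgCl (D.ℓ v))) h0
    simp only [ZeroMemClass.coe_zero, EmbeddingLike.map_eq_zero_iff] at this
    exact u.ne_zero this
  refine ⟨Units.mk0 _ hne, fun g hg => ?_⟩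
  obtain ⟨τ, s, hs, rfl⟩ := (inPl_iff_of_inPl hKL D ⟨τ₀, h₀⟩ g).mp hg
  have hc : Cmp hKL D v (locHom (D.ℓ v) L τ * g₀ * s) (τ * τ₀) := (h₀.mul_left τ).mul_right hs
  rw [Phi_apply, phi_of_cmp _ hc]
  -- left side
  have e1 : f.1 (locHom (D.ℓ v) L τ * g₀ * s) = f.1 (locHom (D.ℓ v) L τ * g₀) := by
    have := congrArg (fun f' : (Jq (D.ℓ v) L).V => f'.1 (locHom (D.ℓ v) L τ * g₀)) (hf s hs)
    exact this
  have e2 : f.1 (locHom (D.ℓ v) L τ * g₀) = (localUnits (D.ℓ v)).ρ τ (f.1 g₀) := f.2 _ _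
  rw [e1, e2]
  apply Additive.toMul.injective
  apply Units.ext
  change τ (u : PadicAlgCl (D.ℓ v)) = (τ * τ₀) (τ₀.symm (u : PadicAlgCl (D.ℓ v)))
  rw [AlgEquiv.mul_apply, AlgEquiv.apply_symm_apply]

omit [FiniteDimensional ℚ L] in
/-- **(A8)** norm form: if the value of `Phi v z` at one point of the double coset has norm one
then `z` is a unit. -/
theorem mem_unitBall_of_norm_Phi {v : HeightOneSpectrum (𝓞 K)} (z : (D.locField v)ˣ) {g : GalL L}
    (hg : InPl hKL D v g)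
    (h1 : ‖((phi hKL D v z g : (PadicAlgCl (D.ℓ v))ˣ) : PadicAlgCl (D.ℓ v))‖ = 1) :
    z ∈ unitBall D v := by
  rw [mem_unitBall_iff, ← norm_phi_of_inPl z hg]
  exact h1

end Fermat.Agent.S55.RelDict24
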