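/-
S55 / 32c-B-RELDICT (helper24): the RELATIVE prime dictionary `K ≤ L` (`K` not normal over `ℚ`)
between embeddings `K → PadicAlgCl q` and the semilocal model of `Idele73.Basic`
(statements of helper53 #2037).

File `Embed.lean` (R1):
* `exists_algEquiv_of_algHom` : two `F`-algebra homs out of a normal extension differ by an
  automorphism;
* `exists_aut_of_algHom`    : every `ℚ`-algebra hom `ℚbar → PadicAlgCl q` is `padicEmbedding q ∘ s`;
* `exists_gal_of_embedding` (R1): every ring hom `σ : K → PadicAlgCl q` is `x ↦ ι (g x)` for some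
  `g ∈ Gal(L/ℚ)`.
(R2) is in `Orbit.lean`, (R3) in `Place.lean`; all three share the namespace
`Fermat.Agent.S55.RelDict24`.
-/
import Mathlib
import Fermat.Prelude.Def_GaloisRep_CompletionBridge
import Fermat.Agent.S55.Idele73.Basic
import Fermat.Agent.S55.PlaceCount50.Dict

set_option autoImplicit false

open scoped NNReal Pointwise
open IsDedekindDomain NumberField

noncomputable section

namespace Fermat.Agent.S55.RelDict24

open Fermat.Agent.S55.Idele73.Basic

/-- two `F`-algebra homs from a normal extension `A/F` into a field differ by an automorphism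
of `A`. -/
theorem exists_algEquiv_of_algHom {F A Ω : Type*} [Field F] [Field A] [Field Ω] [Algebra F A]
    [Algebra F Ω] [Normal F A] (ψ φ : A →ₐ[F] Ω) :
    ∃ s : A ≃ₐ[F] A, ∀ x : A, φ x = ψ (s x) := by
  let e := AlgEquiv.ofInjectiveField ψ
  have hn : Normal F ψ.fieldRange := Normal.of_algEquiv e
  let f : ψ.fieldRange →ₐ[F] Ω := φ.comp e.symm.toAlgHom
  have hf : f.fieldRange = ψ.fieldRange := AlgHom.fieldRange_of_normal f
  have hmem : ∀ x : A, φ x ∈ ψ.fieldRange := by
    intro x
    rw [← hf]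
    refine ⟨e x, ?_⟩
    change φ (e.symm (e x)) = φ x
    rw [e.symm_apply_apply]
  let φ' : A →ₐ[F] ψ.fieldRange := φ.codRestrict ψ.fieldRange.toSubalgebra hmem
  let s0 : A →ₐ[F] A := e.symm.toAlgHom.comp φ'
  have hs0 : ∀ x, ψ (s0 x) = φ x := by
    intro x
    have h1 : ((e (s0 x) : ψ.fieldRange) : Ω) = ψ (s0 x) := rfl
    rw [← h1]
    have h2 : e (s0 x) = φ' x := by
      change e (e.symm (φ' x)) = φ' x
      exact e.apply_symm_apply _
    rw [h2]
    rfl
  have hbij : Function.Bijective s0 := Algebra.IsAlgebraic.algHom_bijective s0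
  exact ⟨AlgEquiv.ofBijective s0 hbij, fun x => (hs0 x).symm⟩

variable (q : ℕ) [Fact q.Prime]

/-- every `ℚ`-algebra hom `ℚbar → PadicAlgCl q` differs from `padicEmbedding q` by an automorphism
of `ℚbar`. -/
theorem exists_aut_of_algHom (φ : Qbar →ₐ[ℚ] PadicAlgCl q) :
    ∃ s : GQ, ∀ x : Qbar, φ x = padicEmbedding q (s x) :=
  exists_algEquiv_of_algHom (padicEmbedding q) φ

section relative

variable {K L : IntermediateField ℚ Qbar} [Normal ℚ L] (hKL : K ≤ L)

/-- **(R1)** every embedding `σ : K → PadicAlgCl q` is `x ↦ ι (g x)` for some `g ∈ Gal(L/ℚ)`. -/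
theorem exists_gal_of_embedding (σ : K →+* PadicAlgCl q) :
    ∃ g : GalL L, ∀ x : K, σ x = iotaL q L (g (IntermediateField.inclusion hKL x)) := by
  obtain ⟨φ, hφ⟩ := IsAlgClosed.surjective_domRestrict_of_isAlgebraic (K := ℚ) (L := K)
    (M := PadicAlgCl q) (E := Qbar) σ.toRatAlgHom
  obtain ⟨s, hs⟩ := exists_aut_of_algHom q φ
  refine ⟨resL L s, fun x => ?_⟩
  have h1 : σ x = φ (x : Qbar) := by
    have := congrArg (fun ψ : K →ₐ[ℚ] PadicAlgCl q => ψ x) hφ
    exact this.symm
  rw [h1, hs, iotaL_apply, resL_apply]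
  rfl

end relative

end Fermat.Agent.S55.RelDict24
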