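/-
S55 / 32c-B-RELDICT (helper24), part (R2): two elements `g, g'` of `Gal(L/ℚ)` cut out the same
place of the subfield `K ≤ L` (same unit ball of `x ↦ ι (g x)` on `K`) iff
`g' = τ|_L * g * s` with `τ` in the local Galois group and `s ∈ Gal(L/K)`.

Proof: `H = Gal(L/K)` acts on `𝓞 L`; the primes `primeAt g`, `primeAt g'` have the same
contraction to the ring of `H`-invariants (whose elements lie in `K` by the Galois correspondence),
so they are `H`-conjugate (`Algebra.IsInvariant.exists_smul_of_under_eq`); conclude with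
`PlaceCount50.primeAt_eq_primeAt_iff`.
-/
import Mathlib
import Fermat.Prelude.Def_GaloisRep_CompletionBridge
import Fermat.Agent.S55.Idele73.Basic
import Fermat.Agent.S55.PlaceCount50.Dict
import Fermat.Agent.S55.RelDict24.Embed

set_option autoImplicit false

open scoped NNReal Pointwise
open IsDedekindDomain NumberField

noncomputable section

namespace Fermat.Agent.S55.RelDict24

open Fermat.Agent.S55.Idele73.Basic Fermat.Agent.S55.PlaceCount50

/-- two ring homs of a field into a normed field with the same closed unit ball have the same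
open unit ball. -/
theorem lt_one_iff_of_le_one_iff {F Ω : Type*} [Field F] [NormedField Ω] (j j' : F →+* Ω)
    (h : ∀ x : F, ‖j x‖ ≤ 1 ↔ ‖j' x‖ ≤ 1) (x : F) : ‖j x‖ < 1 ↔ ‖j' x‖ < 1 := by
  by_cases hx : x = 0
  · simp [hx]
  · have hn : 0 < ‖j x‖ := norm_pos_iff.mpr ((map_ne_zero _).mpr hx)
    have hn' : 0 < ‖j' x‖ := norm_pos_iff.mpr ((map_ne_zero _).mpr hx)
    have h1 := h x⁻¹
    rw [map_inv₀, map_inv₀, norm_inv, norm_inv, inv_le_one₀ hn, inv_le_one₀ hn'] at h1
    rw [← not_le, ← not_le, h1]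

variable (q : ℕ) [Fact q.Prime]

variable {K L : IntermediateField ℚ Qbar} [Normal ℚ L] [FiniteDimensional ℚ L] (hKL : K ≤ L)

/-- **(R2)** if `x ↦ ι (g x)` and `x ↦ ι (g' x)` have the same unit ball on `K` then
`g' = τ|_L * g * s` with `τ` local and `s` fixing `K`. -/
theorem exists_locHom_mul_of_unitBall_eq (g g' : GalL L)
    (h : ∀ x : K, ‖iotaL q L (g (IntermediateField.inclusion hKL x))‖ ≤ 1 ↔
      ‖iotaL q L (g' (IntermediateField.inclusion hKL x))‖ ≤ 1) :
    ∃ (τ : Gq q) (s : GalL L), (∀ x : K, s (IntermediateField.inclusion hKL x) =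
      IntermediateField.inclusion hKL x) ∧ g' = locHom q L τ * g * s := by
  have : IsGalois ℚ L := ⟨⟩
  let _ : MulSemiringAction (L ≃ₐ[ℚ] L) (𝓞 L) := IsIntegralClosure.MulSemiringAction ℤ ℚ L (𝓞 L)
  have hact : ∀ (σ : L ≃ₐ[ℚ] L) (x : 𝓞 L), ((σ • x : 𝓞 L) : L) = σ (x : L) :=
    fun σ x => algebraMap_galRestrict_apply ℤ σ x
  -- the subgroup `H = Gal(L/K)`
  set K' : IntermediateField ℚ L := IntermediateField.restrict hKL with hK'
  set H : Subgroup (L ≃ₐ[ℚ] L) := K'.fixingSubgroup with hH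
  have hHfix : ∀ s ∈ H, ∀ x : K, s (IntermediateField.inclusion hKL x) =
      IntermediateField.inclusion hKL x := by
    intro s hs x
    exact (IntermediateField.mem_fixingSubgroup_iff K' s).mp hs _
      ((IntermediateField.mem_restrict hKL _).mpr x.2)
  -- invariants of `H` in `𝓞 L` lie in `K`
  have hinv : ∀ a : 𝓞 L, (∀ s : H, s • a = a) → ∃ x : K,
      IntermediateField.inclusion hKL x = (a : L) := by
    intro a ha
    have h1 : (a : L) ∈ IntermediateField.fixedField H := by
      rw [IntermediateField.mem_fixedField_iff]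
      intro s hs
      have := ha ⟨s, hs⟩
      rw [← hact s a]
      exact congrArg (fun t : 𝓞 L => (t : L)) this
    have h2 : IntermediateField.fixedField (IntermediateField.fixingSubgroup K') = K' :=
      IsGalois.fixedField_fixingSubgroup K'
    rw [hH, h2] at h1
    have h3 : ((a : L) : Qbar) ∈ K := (IntermediateField.mem_restrict hKL _).mp h1
    exact ⟨⟨_, h3⟩, rfl⟩
  -- the two primes have the same contraction to the invariants
  let A : Subring (𝓞 L) := FixedPoints.subring (𝓞 L) H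
  have hAinv : Algebra.IsInvariant A (𝓞 L) H := ⟨fun b hb => ⟨⟨b, hb⟩, rfl⟩⟩
  have hunder : (primeAt q L g).asIdeal.under A = (primeAt q L g').asIdeal.under A := by
    apply Ideal.ext
    intro a
    rw [Ideal.mem_comap, Ideal.mem_comap]
    change (a : 𝓞 L) ∈ _ ↔ (a : 𝓞 L) ∈ _
    rw [mem_primeAt_iff, mem_primeAt_iff]
    obtain ⟨x, hx⟩ := hinv (a : 𝓞 L) a.2
    rw [← hx]
    exact lt_one_iff_of_le_one_iff
      ((iotaL q L).comp ((g : L →+* L).comp (IntermediateField.inclusion hKL : K →+* L)))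
      ((iotaL q L).comp ((g' : L →+* L).comp (IntermediateField.inclusion hKL : K →+* L))) h x
  obtain ⟨s, hs⟩ := Algebra.IsInvariant.exists_smul_of_under_eq A (𝓞 L) H
    (primeAt q L g).asIdeal (primeAt q L g').asIdeal hunder
  -- `s • primeAt g = primeAt (g * s⁻¹)`
  have hs' : primeAt q L (g * (s : L ≃ₐ[ℚ] L)⁻¹) = primeAt q L g' := by
    apply HeightOneSpectrum.ext
    rw [hs]
    apply Ideal.ext
    intro x
    rw [mem_primeAt_iff, Ideal.mem_pointwise_smul_iff_inv_smul_mem, mem_primeAt_iff]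
    have : ((s⁻¹ • x : 𝓞 L) : L) = (s : L ≃ₐ[ℚ] L)⁻¹ (x : L) := hact (s : L ≃ₐ[ℚ] L)⁻¹ x
    rw [this, AlgEquiv.mul_apply]
  obtain ⟨τ, hτ⟩ := (primeAt_eq_primeAt_iff q L _ _).mp hs'
  refine ⟨τ, (s : L ≃ₐ[ℚ] L)⁻¹, hHfix _ (H.inv_mem s.2), ?_⟩
  rw [hτ]
  group

end Fermat.Agent.S55.RelDict24
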