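/-
S55 / 32c-B-RELDICT (helper24), part (R3): the relative dictionary in the vocabulary of the place
model `SecondInst53.PlaceModel` (`D : PlaceData K`, chosen embeddings `D.σ v : K → PadicAlgCl ℓ_v`).

* `placeOf q g`      : the place `{x | ‖ι_q (g x)‖ < 1}` of `K` cut out by `g ∈ Gal(L/ℚ)`;
* `exists_cmp`       : every `D.σ v` is `x ↦ ι (g x)` for some `g`;
* `exists_place`     : for every `q, g` there are a place `v` above `q` and a local automorphism `τ`
  with `ι (g x) = τ (σ_v x)` on `K`; `place_unique`: `v` is unique (`= placeOf q g`);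
* `placeOf_eq_iff`   : `placeOf q g = placeOf q g'` iff `g' = τ|_L * g * s`, `s ∈ Gal(L/K)`.
-/
import Mathlib
import Fermat.Prelude.Def_GaloisRep_CompletionBridge
import Fermat.Agent.S55.Idele73.Basic
import Fermat.Agent.S55.PlaceCount50.Dict
import Fermat.Agent.S55.SecondInst53.PlaceModel
import Fermat.Agent.S55.RelDict24.Embed
import Fermat.Agent.S55.RelDict24.Orbit

set_option autoImplicit false

open scoped NNReal Pointwise
open IsDedekindDomain NumberField

noncomputable section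

namespace Fermat.Agent.S55.RelDict24

open Fermat.Agent.S55.Idele73.Basic Fermat.Agent.S55.PlaceCount50
open Fermat.Agent.S55.SecondInst53.PlaceModel

variable {K L : IntermediateField ℚ Qbar} [Normal ℚ L] [FiniteDimensional ℚ L] (hKL : K ≤ L)

/-- the embedding `x ↦ ι_q (g x)` of `K`. -/
def embK (q : ℕ) [Fact q.Prime] (g : GalL L) : K →+* PadicAlgCl q :=
  (iotaL q L).comp ((g : L →+* L).comp (IntermediateField.inclusion hKL : K →+* L))

omit [FiniteDimensional ℚ L] in
@[simp] theorem embK_apply (q : ℕ) [Fact q.Prime] (g : GalL L) (x : K) :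
    embK hKL q g x = iotaL q L (g (IntermediateField.inclusion hKL x)) := rfl

variable [NumberField K]

/-- the place of `K` cut out by `g ∈ Gal(L/ℚ)` at the prime `q`. -/
def placeOf (q : ℕ) [Fact q.Prime] (g : GalL L) : HeightOneSpectrum (𝓞 K) :=
  primeOf q K (embK hKL q g)

omit [FiniteDimensional ℚ L] in
theorem valuation_placeOf_le_one_iff (q : ℕ) [Fact q.Prime] (g : GalL L) (x : K) :
    (placeOf hKL q g).valuation K x ≤ 1 ↔
      ‖iotaL q L (g (IntermediateField.inclusion hKL x))‖ ≤ 1 :=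
  valuation_primeOf_le_one_iff (embK hKL q g) x

omit [FiniteDimensional ℚ L] in
theorem natCast_mem_placeOf (q : ℕ) [Fact q.Prime] (g : GalL L) :
    (q : 𝓞 K) ∈ (placeOf hKL q g).asIdeal := natCast_mem_primeOf _

/-- a place is determined by an embedding cutting it out. -/
theorem eq_primeOf_of_le_one_iff (q : ℕ) [Fact q.Prime] (v : HeightOneSpectrum (𝓞 K))
    (j : K →+* PadicAlgCl q) (h : ∀ x : K, v.valuation K x ≤ 1 ↔ ‖j x‖ ≤ 1) :
    v = primeOf q K j := by
  have hlt : ∀ x : K, v.valuation K x < 1 ↔ ‖j x‖ < 1 := by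
    intro x
    by_cases hx : x = 0
    · simp [hx]
    · have h1 := h x⁻¹
      rw [map_inv₀, map_inv₀, norm_inv] at h1
      have hv : 0 < v.valuation K x := zero_lt_iff.mpr ((Valuation.ne_zero_iff _).mpr hx)
      have hn : 0 < ‖j x‖ := norm_pos_iff.mpr ((map_ne_zero _).mpr hx)
      rw [inv_le_one₀ hv, inv_le_one₀ hn] at h1
      rw [← not_le, ← not_le, h1]
  apply HeightOneSpectrum.ext
  apply Ideal.ext
  intro x
  rw [mem_primeOf_iff, ← hlt]
  exact (v.valuation_lt_one_iff_mem (K := K) x).symm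

omit [FiniteDimensional ℚ L] in
/-- `placeOf` only depends on the prime `q` up to equality. -/
theorem placeOf_congr {q q' : ℕ} [Fact q.Prime] [Fact q'.Prime] (hq : q = q') (g : GalL L) :
    placeOf hKL q g = placeOf hKL q' g := by
  subst hq
  rfl

variable (D : PlaceData K)

omit [FiniteDimensional ℚ L] in
/-- the residue characteristic of `placeOf q g` is `q`. -/
theorem ℓ_placeOf (q : ℕ) [Fact q.Prime] (g : GalL L) : D.ℓ (placeOf hKL q g) = q :=
  eq_of_natCast_mem (D.ℓ (placeOf hKL q g)) K (placeOf hKL q g).isPrime.ne_top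
    (D.natCast_mem _) (natCast_mem_placeOf hKL q g)

omit [FiniteDimensional ℚ L] in
/-- **(R3a)** every chosen embedding `D.σ v` is `x ↦ ι (g x)` for some `g ∈ Gal(L/ℚ)`. -/
theorem exists_cmp (v : HeightOneSpectrum (𝓞 K)) :
    ∃ g : GalL L, ∀ x : K, D.σ v x = iotaL (D.ℓ v) L (g (IntermediateField.inclusion hKL x)) :=
  exists_gal_of_embedding (D.ℓ v) hKL (D.σ v)

omit [FiniteDimensional ℚ L] in
/-- every place of `K` is some `placeOf (D.ℓ v) g`. -/
theorem exists_placeOf_eq (v : HeightOneSpectrum (𝓞 K)) :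
    ∃ g : GalL L, placeOf hKL (D.ℓ v) g = v := by
  obtain ⟨g, hg⟩ := exists_cmp hKL D v
  refine ⟨g, (eq_primeOf_of_le_one_iff (D.ℓ v) v _ fun x => ?_).symm⟩
  rw [D.le_one_iff, embK_apply, hg]

/-- if `g` cuts out `v` then `ι (g x) = τ (σ_v x)` on `K` for some local automorphism `τ`. -/
theorem exists_local_of_le_one_iff (v : HeightOneSpectrum (𝓞 K)) (g : GalL L)
    (hv : ∀ x : K, v.valuation K x ≤ 1 ↔
      ‖iotaL (D.ℓ v) L (g (IntermediateField.inclusion hKL x))‖ ≤ 1) :
    ∃ τ : Gq (D.ℓ v), ∀ x : K,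
      iotaL (D.ℓ v) L (g (IntermediateField.inclusion hKL x)) = τ (D.σ v x) := by
  obtain ⟨g0, hg0⟩ := exists_cmp hKL D v
  obtain ⟨τ, s, hs, hτ⟩ := exists_locHom_mul_of_unitBall_eq (D.ℓ v) hKL g0 g (fun x => by
    rw [← hg0, ← D.le_one_iff, hv])
  refine ⟨τ, fun x => ?_⟩
  rw [hτ, AlgEquiv.mul_apply, AlgEquiv.mul_apply, hs, iotaL_locHom, hg0]

/-- **(R3b)** for every prime `q` and `g ∈ Gal(L/ℚ)` there are a place `v` of `K` above `q` and a
local automorphism `τ` with `ι (g x) = τ (σ_v x)` on `K`. -/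
theorem exists_place (q : ℕ) [Fact q.Prime] (g : GalL L) :
    ∃ v : HeightOneSpectrum (𝓞 K), ∃ _hq : D.ℓ v = q, ∃ τ : Gq (D.ℓ v), ∀ x : K,
      iotaL (D.ℓ v) L (g (IntermediateField.inclusion hKL x)) = τ (D.σ v x) := by
  refine ⟨placeOf hKL q g, ℓ_placeOf hKL D q g, ?_⟩
  apply exists_local_of_le_one_iff hKL D
  intro x
  have e : placeOf hKL (D.ℓ (placeOf hKL q g)) g = placeOf hKL q g :=
    placeOf_congr hKL (ℓ_placeOf hKL D q g) g
  have h := valuation_placeOf_le_one_iff hKL (D.ℓ (placeOf hKL q g)) g x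
  rw [e] at h
  exact h

end Fermat.Agent.S55.RelDict24
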