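/-
S55 / 32c-B-RELDICT (helper24), extras to (R3): the map `g ↦ placeOf q g` from `Gal(L/ℚ)` to the
places of `K` above `q` is the quotient by `D_q \ Gal(L/ℚ) / Gal(L/K)`.

* `placeOf_locHom_mul`, `placeOf_mul_of_fixes` : invariance;
* `placeOf_eq_iff`   : `placeOf q g = placeOf q g'` iff `g' = τ|_L * g * s`, `s ∈ Gal(L/K)`;
* `place_unique`     : the place `v` of `exists_place` is `placeOf q g`;
* `placeOf_eq_iff_exists_local` : `placeOf (D.ℓ v) g = v` iff `ι (g x) = τ (σ_v x)` on `K` for some
  local `τ`.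
-/
import Mathlib
import Fermat.Prelude.Def_GaloisRep_CompletionBridge
import Fermat.Agent.S55.Idele73.Basic
import Fermat.Agent.S55.PlaceCount50.Dict
import Fermat.Agent.S55.SecondInst53.PlaceModel
import Fermat.Agent.S55.RelDict24.Place

set_option autoImplicit false

open scoped NNReal Pointwise
open IsDedekindDomain NumberField

noncomputable section

namespace Fermat.Agent.S55.RelDict24

open Fermat.Agent.S55.Idele73.Basic Fermat.Agent.S55.PlaceCount50
open Fermat.Agent.S55.SecondInst53.PlaceModel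

variable {K L : IntermediateField ℚ Qbar} [Normal ℚ L] [FiniteDimensional ℚ L] (hKL : K ≤ L)
variable [NumberField K]

/-- local automorphisms preserve the norm. -/
theorem norm_Gq_apply (q : ℕ) [Fact q.Prime] (τ : Gq q) (y : PadicAlgCl q) : ‖τ y‖ = ‖y‖ :=
  congrArg NNReal.toReal (nnnorm_padicAlgCl_algEquiv q τ y)

omit [FiniteDimensional ℚ L] in
/-- `placeOf q g = placeOf q g'` iff the two embeddings have the same unit ball on `K`. -/
theorem placeOf_eq_iff_unitBall (q : ℕ) [Fact q.Prime] (g g' : GalL L) :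
    placeOf hKL q g = placeOf hKL q g' ↔
      ∀ x : K, ‖iotaL q L (g (IntermediateField.inclusion hKL x))‖ ≤ 1 ↔
        ‖iotaL q L (g' (IntermediateField.inclusion hKL x))‖ ≤ 1 :=
  primeOf_eq_iff (embK hKL q g) (embK hKL q g')

omit [FiniteDimensional ℚ L] in
/-- left multiplication by a local automorphism does not change the place. -/
theorem placeOf_locHom_mul (q : ℕ) [Fact q.Prime] (τ : Gq q) (g : GalL L) :
    placeOf hKL q (locHom q L τ * g) = placeOf hKL q g := by
  rw [placeOf_eq_iff_unitBall]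
  intro x
  rw [AlgEquiv.mul_apply, iotaL_locHom, norm_Gq_apply]

omit [FiniteDimensional ℚ L] in
/-- right multiplication by an element of `Gal(L/K)` does not change the place. -/
theorem placeOf_mul_of_fixes (q : ℕ) [Fact q.Prime] (g s : GalL L)
    (hs : ∀ x : K, s (IntermediateField.inclusion hKL x) = IntermediateField.inclusion hKL x) :
    placeOf hKL q (g * s) = placeOf hKL q g := by
  rw [placeOf_eq_iff_unitBall]
  intro x
  rw [AlgEquiv.mul_apply, hs]

/-- **double coset description** of the places of `K` above `q`. -/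
theorem placeOf_eq_iff (q : ℕ) [Fact q.Prime] (g g' : GalL L) :
    placeOf hKL q g = placeOf hKL q g' ↔
      ∃ (τ : Gq q) (s : GalL L), (∀ x : K, s (IntermediateField.inclusion hKL x) =
        IntermediateField.inclusion hKL x) ∧ g' = locHom q L τ * g * s := by
  constructor
  · intro h
    exact exists_locHom_mul_of_unitBall_eq q hKL g g' ((placeOf_eq_iff_unitBall hKL q g g').mp h)
  · rintro ⟨τ, s, hs, rfl⟩
    rw [placeOf_mul_of_fixes hKL q _ s hs, placeOf_locHom_mul]

variable (D : PlaceData K)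

omit [FiniteDimensional ℚ L] in
/-- if `ι (g x) = τ (σ_v x)` on `K` then `v = placeOf (D.ℓ v) g`. -/
theorem eq_placeOf_of_local (v : HeightOneSpectrum (𝓞 K)) (g : GalL L) (τ : Gq (D.ℓ v))
    (h : ∀ x : K, iotaL (D.ℓ v) L (g (IntermediateField.inclusion hKL x)) = τ (D.σ v x)) :
    v = placeOf hKL (D.ℓ v) g := by
  refine eq_primeOf_of_le_one_iff (D.ℓ v) v _ fun x => ?_
  rw [D.le_one_iff, embK_apply, h, norm_Gq_apply]

/-- `placeOf (D.ℓ v) g = v` iff `ι (g x) = τ (σ_v x)` on `K` for some local automorphism `τ`. -/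
theorem placeOf_eq_iff_exists_local (v : HeightOneSpectrum (𝓞 K)) (g : GalL L) :
    placeOf hKL (D.ℓ v) g = v ↔ ∃ τ : Gq (D.ℓ v), ∀ x : K,
      iotaL (D.ℓ v) L (g (IntermediateField.inclusion hKL x)) = τ (D.σ v x) := by
  constructor
  · intro h
    apply exists_local_of_le_one_iff hKL D v g
    intro x
    rw [← valuation_placeOf_le_one_iff, h]
  · rintro ⟨τ, hτ⟩
    exact (eq_placeOf_of_local hKL D v g τ hτ).symm

omit [FiniteDimensional ℚ L] in
/-- **uniqueness** in `exists_place`: the place is `placeOf q g`. -/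
theorem place_unique (q : ℕ) [Fact q.Prime] (g : GalL L) (v : HeightOneSpectrum (𝓞 K))
    (hq : D.ℓ v = q) (τ : Gq (D.ℓ v))
    (h : ∀ x : K, iotaL (D.ℓ v) L (g (IntermediateField.inclusion hKL x)) = τ (D.σ v x)) :
    v = placeOf hKL q g := by
  rw [eq_placeOf_of_local hKL D v g τ h]
  exact placeOf_congr hKL hq g

omit [FiniteDimensional ℚ L] in
/-- two places with the same data `(q, g)` coincide. -/
theorem place_unique' (g : GalL L) (v v' : HeightOneSpectrum (𝓞 K)) (hℓ : D.ℓ v = D.ℓ v')
    (τ : Gq (D.ℓ v)) (τ' : Gq (D.ℓ v'))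
    (h : ∀ x : K, iotaL (D.ℓ v) L (g (IntermediateField.inclusion hKL x)) = τ (D.σ v x))
    (h' : ∀ x : K, iotaL (D.ℓ v') L (g (IntermediateField.inclusion hKL x)) = τ' (D.σ v' x)) :
    v = v' := by
  rw [eq_placeOf_of_local hKL D v g τ h, eq_placeOf_of_local hKL D v' g τ' h']
  exact placeOf_congr hKL hℓ g

end Fermat.Agent.S55.RelDict24
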