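/-
S55 / 32c-B (helper24): the assembly maps of helper53 (`SecondInst53.Assembly.Phi`) collected
PRIME BY PRIME: for a rational prime `q` and a place `v` of `K`, `PhiAt q v z ∈ Jq q L` is
`Phi v z` transported along `D.ℓ v = q` (and `0` if `v` is not above `q`).

* `castJq`            : transport `Jq ℓ L ≃+ Jq q L` along `ℓ = q`;
* `PhiAt`, `PhiAtHom`, `rho_PhiAt` (invariance under `Gal(L/K)`);
* `sum_PhiAt_diag`    : `∑_{v ∣ q} PhiAt q v (σ_v c) = diag q L c` (principal ideles);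
* `exists_sum_PhiAt_eq` : GLOBAL SURJECTIVITY at `q`: every `Gal(L/K)`-invariant element of
  `Jq q L` is `∑_{v ∣ q} PhiAt q v (z v)`.
-/
import Mathlib
import Fermat.Prelude.Def_GaloisRep_CompletionBridge
import Fermat.Agent.S55.Idele73.Basic
import Fermat.Agent.S55.PlaceCount50.Dict
import Fermat.Agent.S55.SecondInst53.PlaceModel
import Fermat.Agent.S55.SecondInst53.Assembly
import Fermat.Agent.S55.RelDict24.AssemblyAdapt

set_option autoImplicit false

open scoped NNReal Pointwise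
open IsDedekindDomain NumberField

noncomputable section

namespace Fermat.Agent.S55.RelDict24

open Fermat.Agent.S55.Idele73.Basic Fermat.Agent.S55.PlaceCount50
open Fermat.Agent.S55.SecondInst53.PlaceModel Fermat.Agent.S55.SecondInst53.Assembly

variable {L : IntermediateField ℚ Qbar} [Normal ℚ L]

/-! ### Transport along an equality of primes -/

/-- transport of the units of `PadicAlgCl` along `ℓ = q`. -/
def castU {ℓ q : ℕ} [Fact ℓ.Prime] [Fact q.Prime] (h : ℓ = q) :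
    (PadicAlgCl ℓ)ˣ ≃* (PadicAlgCl q)ˣ := by
  subst h
  exact MulEquiv.refl _

/-- transport of `Jq` along `ℓ = q`. -/
def castJq {ℓ q : ℕ} [Fact ℓ.Prime] [Fact q.Prime] (h : ℓ = q) :
    (Jq ℓ L).V ≃+ (Jq q L).V := by
  subst h
  exact AddEquiv.refl _

theorem castJq_apply {ℓ q : ℕ} [Fact ℓ.Prime] [Fact q.Prime] (h : ℓ = q) (f : (Jq ℓ L).V)
    (g : GalL L) :
    (castJq (L := L) h f).1 g = Additive.ofMul (castU h (Additive.toMul (f.1 g))) := by
  subst h
  rfl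

theorem norm_castU {ℓ q : ℕ} [Fact ℓ.Prime] [Fact q.Prime] (h : ℓ = q) (u : (PadicAlgCl ℓ)ˣ) :
    ‖((castU h u : (PadicAlgCl q)ˣ) : PadicAlgCl q)‖ = ‖(u : PadicAlgCl ℓ)‖ := by
  subst h
  rfl

theorem castU_iotaL {ℓ q : ℕ} [Fact ℓ.Prime] [Fact q.Prime] (h : ℓ = q) (x : Lˣ) :
    castU h (Units.map (iotaL ℓ L).toMonoidHom x) = Units.map (iotaL q L).toMonoidHom x := by
  subst h
  rfl

theorem castJq_rho {ℓ q : ℕ} [Fact ℓ.Prime] [Fact q.Prime] (h : ℓ = q) (s : GalL L)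
    (f : (Jq ℓ L).V) : castJq (L := L) h ((Jq ℓ L).ρ s f) = (Jq q L).ρ s (castJq h f) := by
  subst h
  rfl

theorem castJq_diag {ℓ q : ℕ} [Fact ℓ.Prime] [Fact q.Prime] (h : ℓ = q) (x : Lx L) :
    castJq (L := L) h ((diag ℓ L).hom x) = (diag q L).hom x := by
  subst h
  rfl

theorem castJq_symm_rho {ℓ q : ℕ} [Fact ℓ.Prime] [Fact q.Prime] (h : ℓ = q) (s : GalL L)
    (f : (Jq q L).V) :
    (castJq (L := L) h).symm ((Jq q L).ρ s f) = (Jq ℓ L).ρ s ((castJq h).symm f) := by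
  subst h
  rfl

theorem castJq_apply_eq_iff {ℓ q : ℕ} [Fact ℓ.Prime] [Fact q.Prime] (h : ℓ = q)
    (f₁ : (Jq ℓ L).V) (f₂ : (Jq q L).V) (g : GalL L) :
    (castJq (L := L) h f₁).1 g = f₂.1 g ↔ f₁.1 g = ((castJq h).symm f₂).1 g := by
  subst h
  rfl

theorem castJq_apply_eq_zero_iff {ℓ q : ℕ} [Fact ℓ.Prime] [Fact q.Prime] (h : ℓ = q)
    (f : (Jq ℓ L).V) (g : GalL L) : (castJq (L := L) h f).1 g = 0 ↔ f.1 g = 0 := by
  subst h
  rfl

theorem castJq_zero {ℓ q : ℕ} [Fact ℓ.Prime] [Fact q.Prime] (h : ℓ = q) :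
    castJq (L := L) h 0 = 0 := by
  subst h
  rfl

theorem castJq_add {ℓ q : ℕ} [Fact ℓ.Prime] [Fact q.Prime] (h : ℓ = q) (f f' : (Jq ℓ L).V) :
    castJq (L := L) h (f + f') = castJq h f + castJq h f' := by
  subst h
  rfl

/-! ### The assembly maps prime by prime -/

variable [FiniteDimensional ℚ L]
variable {K : IntermediateField ℚ Qbar} [FiniteDimensional ℚ K] (hKL : K ≤ L)
variable (D : PlaceData ↥K)

/-- an element of `Lˣ` as an element of the representation `Lx L`. -/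
def toLx (x : Lˣ) : (Lx L).V := Additive.ofMul x

/-- the image of `c ∈ Kˣ` in `Lˣ`. -/
def inclU (c : (↥K)ˣ) : Lˣ := Units.map (incl L K hKL : K →* L) c

omit [FiniteDimensional ℚ L] [FiniteDimensional ℚ K] in
@[simp] theorem inclU_coe (c : (↥K)ˣ) : ((inclU hKL c : Lˣ) : L) = incl L K hKL (c : K) := rfl

open Classical in
/-- the `q`-component of the local assembly map at the place `v`: `Phi v z` transported along
`D.ℓ v = q`, and `0` if `v` is not above `q`. -/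
def PhiAt (q : ℕ) [Fact q.Prime] (v : HeightOneSpectrum (𝓞 K)) (z : (D.locField v)ˣ) :
    (Jq q L).V :=
  if h : D.ℓ v = q then castJq h (Phi hKL D v z) else 0

omit [FiniteDimensional ℚ L] in
theorem PhiAt_of_eq {q : ℕ} [Fact q.Prime] {v : HeightOneSpectrum (𝓞 K)} (h : D.ℓ v = q)
    (z : (D.locField v)ˣ) : PhiAt hKL D q v z = castJq h (Phi hKL D v z) := by
  rw [PhiAt, dif_pos h]

omit [FiniteDimensional ℚ L] in
theorem PhiAt_of_ne {q : ℕ} [Fact q.Prime] {v : HeightOneSpectrum (𝓞 K)} (h : D.ℓ v ≠ q)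
    (z : (D.locField v)ˣ) : PhiAt hKL D q v z = 0 := by
  rw [PhiAt, dif_neg h]

omit [FiniteDimensional ℚ L] in
theorem PhiAt_self (v : HeightOneSpectrum (𝓞 K)) (z : (D.locField v)ˣ) :
    PhiAt hKL D (D.ℓ v) v z = Phi hKL D v z := by
  rw [PhiAt_of_eq hKL D rfl]
  rfl

omit [FiniteDimensional ℚ L] in
theorem PhiAt_mul (q : ℕ) [Fact q.Prime] (v : HeightOneSpectrum (𝓞 K))
    (z z' : (D.locField v)ˣ) :
    PhiAt hKL D q v (z * z') = PhiAt hKL D q v z + PhiAt hKL D q v z' := by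
  by_cases h : D.ℓ v = q
  · rw [PhiAt_of_eq hKL D h, PhiAt_of_eq hKL D h, PhiAt_of_eq hKL D h, Phi_mul]
    exact castJq_add h _ _
  · rw [PhiAt_of_ne hKL D h, PhiAt_of_ne hKL D h, PhiAt_of_ne hKL D h, add_zero]

omit [FiniteDimensional ℚ L] in
theorem PhiAt_one (q : ℕ) [Fact q.Prime] (v : HeightOneSpectrum (𝓞 K)) :
    PhiAt hKL D q v 1 = 0 := by
  by_cases h : D.ℓ v = q
  · rw [PhiAt_of_eq hKL D h, Phi_one]
    exact castJq_zero h
  · rw [PhiAt_of_ne hKL D h]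

/-- `PhiAt q v` as an additive homomorphism. -/
def PhiAtHom (q : ℕ) [Fact q.Prime] (v : HeightOneSpectrum (𝓞 K)) :
    Additive (D.locField v)ˣ →+ (Jq q L).V where
  toFun z := PhiAt hKL D q v (Additive.toMul z)
  map_zero' := PhiAt_one hKL D q v
  map_add' _ _ := PhiAt_mul hKL D q v _ _

omit [FiniteDimensional ℚ L] in
/-- `PhiAt q v z` is fixed by `Gal(L/K)`. -/
theorem rho_PhiAt (q : ℕ) [Fact q.Prime] (v : HeightOneSpectrum (𝓞 K)) (z : (D.locField v)ˣ)
    {s : GalL L} (hs : s ∈ fixK L K hKL) :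
    (Jq q L).ρ s (PhiAt hKL D q v z) = PhiAt hKL D q v z := by
  by_cases h : D.ℓ v = q
  · rw [PhiAt_of_eq hKL D h, ← castJq_rho, rho_Phi v z hs]
  · rw [PhiAt_of_ne hKL D h, map_zero]

omit [FiniteDimensional ℚ L] in
/-- `PhiAt q v z` vanishes outside the double coset of `v`. -/
theorem PhiAt_apply_of_not_inPl (q : ℕ) [Fact q.Prime] (v : HeightOneSpectrum (𝓞 K))
    (z : (D.locField v)ˣ) {g : GalL L} (hg : ¬ InPl hKL D v g) : (PhiAt hKL D q v z).1 g = 0 := by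
  by_cases h : D.ℓ v = q
  · rw [PhiAt_of_eq hKL D h, castJq_apply_eq_zero_iff, Phi_apply, phi_of_not z hg]
    rfl
  · rw [PhiAt_of_ne hKL D h]
    rfl

omit [FiniteDimensional ℚ L] in
/-- on the double coset of `v`, `PhiAt q v (σ_v c)` is the diagonal image of `c`. -/
theorem PhiAt_ιf_apply {q : ℕ} [Fact q.Prime] {v : HeightOneSpectrum (𝓞 K)} (hq : D.ℓ v = q)
    (c : (↥K)ˣ) {g : GalL L} (hg : InPl hKL D v g) :
    (PhiAt hKL D q v (ιf D v c)).1 g = ((diag q L).hom (toLx (inclU hKL c))).1 g := by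
  subst hq
  rw [PhiAt_self, Phi_apply]
  apply Additive.toMul.injective
  apply Units.ext
  exact phi_ιf_of_inPl c hg

/-! ### Sums over the places above `q` -/

omit [FiniteDimensional ℚ L] in
/-- the places above `q` are finite in number. -/
theorem finite_setOf_ℓ_eq (q : ℕ) [Fact q.Prime] :
    {v : HeightOneSpectrum (𝓞 K) | D.ℓ v = q}.Finite := by
  have hq0 : ((q : ℕ) : 𝓞 K) ≠ 0 := Nat.cast_ne_zero.mpr (Fact.out : q.Prime).ne_zero
  refine (finite_setOf_mem_asIdeal hq0).subset ?_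
  intro v hv
  have := D.natCast_mem v
  rw [Set.mem_setOf_eq] at hv
  rwa [hv] at this

omit [FiniteDimensional ℚ L] in
/-- evaluation of a finite sum in `Jq q L`. -/
theorem sum_Jq_apply {ι : Type*} (q : ℕ) [Fact q.Prime] (T : Finset ι) (F : ι → (Jq q L).V)
    (g : GalL L) : (∑ v ∈ T, F v).1 g = ∑ v ∈ T, (F v).1 g := by
  classical
  induction T using Finset.induction_on with
  | empty =>
    rw [Finset.sum_empty, Finset.sum_empty]
    rfl
  | insert a T ha ih =>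
    rw [Finset.sum_insert ha, Finset.sum_insert ha, ← ih]
    rfl

/-- at a point `g` of the double coset of `v₀ ∣ q` only the `v₀`-term of `∑ PhiAt q v (z v)`
survives. -/
theorem sum_PhiAt_apply (q : ℕ) [Fact q.Prime] (T : Finset (HeightOneSpectrum (𝓞 K)))
    (z : ∀ v : HeightOneSpectrum (𝓞 K), (D.locField v)ˣ) {v₀ : HeightOneSpectrum (𝓞 K)}
    (hv₀ : v₀ ∈ T) (hq : D.ℓ v₀ = q) {g : GalL L} (hg : InPl hKL D v₀ g) :
    (∑ v ∈ T, PhiAt hKL D q v (z v)).1 g = (PhiAt hKL D q v₀ (z v₀)).1 g := by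
  rw [sum_Jq_apply]
  refine Finset.sum_eq_single v₀ ?_ (fun h => absurd hv₀ h)
  intro v _ hne
  by_cases h : D.ℓ v = q
  · apply PhiAt_apply_of_not_inPl
    intro hg'
    exact hne (inPl_unique hKL D hg' hg (h.trans hq.symm))
  · rw [PhiAt_of_ne hKL D h]
    rfl

/-- **principal ideles**: `∑_{v ∣ q} PhiAt q v (σ_v c) = diag q L c`. -/
theorem sum_PhiAt_diag (q : ℕ) [Fact q.Prime] (T : Finset (HeightOneSpectrum (𝓞 K)))
    (hT : ∀ v, D.ℓ v = q → v ∈ T) (c : (↥K)ˣ) :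
    ∑ v ∈ T, PhiAt hKL D q v (ιf D v c) = (diag q L).hom (toLx (inclU hKL c)) := by
  apply Subtype.ext
  funext g
  obtain ⟨v₀, hq, hg⟩ := exists_inPl_of_prime hKL D q g
  rw [sum_PhiAt_apply hKL D q T (fun v => ιf D v c) (hT v₀ hq) hq hg]
  exact PhiAt_ιf_apply hKL D hq c hg

/-- **global surjectivity at `q`**: every `Gal(L/K)`-invariant element of `Jq q L` is
`∑_{v ∣ q} PhiAt q v (z v)`. -/
theorem exists_sum_PhiAt_eq (q : ℕ) [Fact q.Prime] (T : Finset (HeightOneSpectrum (𝓞 K)))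
    (hT : ∀ v, D.ℓ v = q → v ∈ T) (f : (Jq q L).V)
    (hf : ∀ s ∈ fixK L K hKL, (Jq q L).ρ s f = f) :
    ∃ z : ∀ v : HeightOneSpectrum (𝓞 K), (D.locField v)ˣ,
      f = ∑ v ∈ T, PhiAt hKL D q v (z v) := by
  classical
  have key : ∀ v : HeightOneSpectrum (𝓞 K), ∃ z : (D.locField v)ˣ, ∀ (h : D.ℓ v = q) (g : GalL L),
      InPl hKL D v g → ((castJq h).symm f).1 g = (Phi hKL D v z).1 g := by
    intro v
    by_cases h : D.ℓ v = q
    · have hf' : ∀ s ∈ fixK L K hKL,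
          (Jq (D.ℓ v) L).ρ s ((castJq h).symm f) = (castJq h).symm f := by
        intro s hs
        rw [← castJq_symm_rho, hf s hs]
      obtain ⟨z, hz⟩ := exists_Phi_eq_on_inPl (hKL := hKL) (D := D) v _ hf'
      exact ⟨z, fun _ g hg => hz g hg⟩
    · exact ⟨1, fun h' => absurd h' h⟩
  choose z hz using key
  refine ⟨z, ?_⟩
  apply Subtype.ext
  funext g
  obtain ⟨v₀, hq, hg⟩ := exists_inPl_of_prime hKL D q g
  rw [sum_PhiAt_apply hKL D q T z (hT v₀ hq) hq hg, PhiAt_of_eq hKL D hq]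
  exact ((castJq_apply_eq_iff hq _ f g).mpr (hz v₀ hq g hg).symm).symm

end Fermat.Agent.S55.RelDict24
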