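/-
S55 / 32c-B (helper24), cut (i)+(ii) of helper53's FINAL CUT (#2307): the assembly map at ONE
rational prime `q`,
`PhiQ hKL D q : (∀ v : V K, A D v) →* Multiplicative (Jq q L).V`,
`y ↦ ∑_{v ∣ q} cast (Phi v (y v))`, with (Q1) invariance under `Gal(L/K)`, (Q2) surjectivity onto
the invariants, (Q3) compatibility with the diagonals, (Q4) locality, (Q5) norms, (Q6) units.
-/
import Mathlib
import Fermat.Prelude.Def_GaloisRep_CompletionBridge
import Fermat.Agent.S55.Idele73.Basic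
import Fermat.Agent.S55.PlaceCount50.Dict
import Fermat.Agent.S55.SecondInst53.PlaceModel
import Fermat.Agent.S55.SecondInst53.Assembly
import Fermat.Agent.S55.SecondInst53.NormPred
import Fermat.Agent.S55.RelDict24.GlobalPhi

set_option autoImplicit false

open scoped NNReal Pointwise
open IsDedekindDomain NumberField

noncomputable section

namespace Fermat.Agent.S55.RelDict24

open Fermat.Agent.S55.Idele73.Basic Fermat.Agent.S55.PlaceCount50
open Fermat.Agent.S55.SecondInst53.PlaceModel Fermat.Agent.S55.SecondInst53.Assembly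
open Fermat.Agent.S55.SecondInst53

variable {L : IntermediateField ℚ Qbar} [Normal ℚ L] [FiniteDimensional ℚ L]
variable {K : IntermediateField ℚ Qbar} [FiniteDimensional ℚ K] (hKL : K ≤ L)
variable (D : PlaceData ↥K)

/-- the finite set of places of `K` above `q`. -/
def above (q : ℕ) [Fact q.Prime] : Finset (HeightOneSpectrum (𝓞 K)) :=
  (finite_setOf_ℓ_eq D q).toFinset

omit [Normal ℚ L] [FiniteDimensional ℚ L] in
theorem mem_above_iff (q : ℕ) [Fact q.Prime] (v : HeightOneSpectrum (𝓞 K)) :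
    v ∈ above D q ↔ D.ℓ v = q := by
  rw [above, Set.Finite.mem_toFinset]
  rfl

/-- the component of an idele at a finite place, as a unit of `K_v`. -/
def compAt (y : ∀ v : V ↥K, A D v) (v : HeightOneSpectrum (𝓞 K)) : (D.locField v)ˣ :=
  y (Sum.inl v)

/-- the additive form of `PhiQ`. -/
def phiQ (q : ℕ) [Fact q.Prime] (y : ∀ v : V ↥K, A D v) : (Jq q L).V :=
  ∑ v ∈ above D q, PhiAt hKL D q v (compAt D y v)

omit [FiniteDimensional ℚ L] in
theorem phiQ_one (q : ℕ) [Fact q.Prime] : phiQ hKL D q (L := L) 1 = 0 := by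
  rw [phiQ]
  refine Finset.sum_eq_zero fun v _ => ?_
  exact PhiAt_one hKL D q v

omit [FiniteDimensional ℚ L] in
theorem phiQ_mul (q : ℕ) [Fact q.Prime] (y y' : ∀ v : V ↥K, A D v) :
    phiQ hKL D q (L := L) (y * y') = phiQ hKL D q y + phiQ hKL D q y' := by
  rw [phiQ, phiQ, phiQ, ← Finset.sum_add_distrib]
  refine Finset.sum_congr rfl fun v _ => ?_
  exact PhiAt_mul hKL D q v (compAt D y v) (compAt D y' v)

/-- **the assembly map at the prime `q`**. -/
def PhiQ (q : ℕ) [Fact q.Prime] : (∀ v : V ↥K, A D v) →* Multiplicative (Jq q L).V where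
  toFun y := Multiplicative.ofAdd (phiQ hKL D q y)
  map_one' := by
    rw [phiQ_one]
    rfl
  map_mul' y y' := by
    rw [phiQ_mul]
    rfl

omit [FiniteDimensional ℚ L] in
theorem PhiQ_toAdd (q : ℕ) [Fact q.Prime] (y : ∀ v : V ↥K, A D v) :
    (PhiQ hKL D q (L := L) y).toAdd = ∑ v ∈ above D q, PhiAt hKL D q v (compAt D y v) := rfl

/-! ### (Q1) invariance -/

omit [FiniteDimensional ℚ L] in
theorem rho_phiQ (q : ℕ) [Fact q.Prime] (y : ∀ v : V ↥K, A D v) {s : GalL L}
    (hs : s ∈ fixK L K hKL) : (Jq q L).ρ s (phiQ hKL D q y) = phiQ hKL D q y := by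
  rw [phiQ, map_sum]
  exact Finset.sum_congr rfl fun v _ => rho_PhiAt hKL D q v _ hs

omit [FiniteDimensional ℚ L] in
/-- **(Q1)** `PhiQ q y` is fixed by `Gal(L/K)`. -/
theorem rho_PhiQ (q : ℕ) [Fact q.Prime] (y : ∀ v : V ↥K, A D v) {s : GalL L}
    (hs : s ∈ fixK L K hKL) :
    (Jq q L).ρ s (PhiQ hKL D q y).toAdd = (PhiQ hKL D q y).toAdd :=
  rho_phiQ hKL D q y hs

/-! ### (Q4) locality -/

omit [FiniteDimensional ℚ L] in
/-- **(Q4)** `PhiQ q y` only depends on the components of `y` above `q`. -/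
theorem PhiQ_congr (q : ℕ) [Fact q.Prime] {y y' : ∀ v : V ↥K, A D v}
    (h : ∀ v : HeightOneSpectrum (𝓞 K), D.ℓ v = q → y (Sum.inl v) = y' (Sum.inl v)) :
    PhiQ hKL D q (L := L) y = PhiQ hKL D q y' := by
  apply congrArg Multiplicative.ofAdd
  rw [phiQ, phiQ]
  refine Finset.sum_congr rfl fun v hv => ?_
  rw [compAt, compAt, h v ((mem_above_iff D q v).mp hv)]

/-! ### (Q3) principal ideles -/

/-- **(Q3)** on principal ideles `PhiQ q` is the diagonal of `Jq q L`. -/
theorem PhiQ_diag (q : ℕ) [Fact q.Prime] (c : (↥K)ˣ) :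
    (PhiQ hKL D q (SecondIneq74.diag (A D) (ι D) c)).toAdd =
      (diag q L).hom (Additive.ofMul (Units.map (incl L K hKL : ↥K →* ↥L) c)) :=
  sum_PhiAt_diag hKL D q (above D q) (fun v hv => (mem_above_iff D q v).mpr hv) c

/-! ### (Q2) surjectivity -/

open Classical in
/-- **(Q2)** `PhiQ q` is onto the `Gal(L/K)`-invariants of `Jq q L`, already on the ideles
supported at the places above `q`. -/
theorem PhiQ_surjective (q : ℕ) [Fact q.Prime] (f : (Jq q L).V)
    (hf : ∀ s ∈ fixK L K hKL, (Jq q L).ρ s f = f) :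
    ∃ y : ∀ v : V ↥K, A D v,
      (∀ v : HeightOneSpectrum (𝓞 ↥K), D.ℓ v ≠ q → y (Sum.inl v) = 1) ∧
      (∀ w, y (Sum.inr w) = 1) ∧ (PhiQ hKL D q y).toAdd = f := by
  obtain ⟨z, hz⟩ := exists_sum_PhiAt_eq hKL D q (above D q)
    (fun v hv => (mem_above_iff D q v).mpr hv) f hf
  refine ⟨fun w => match w with
    | Sum.inl v => if D.ℓ v = q then z v else 1
    | Sum.inr _ => 1, fun v hv => ?_, fun w => rfl, ?_⟩
  · exact if_neg hv
  · rw [hz]
    refine Finset.sum_congr rfl fun v hv => ?_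
    have hq : D.ℓ v = q := (mem_above_iff D q v).mp hv
    congr 1
    exact if_pos hq

/-! ### (Q5) norms -/

omit [FiniteDimensional ℚ L] in
theorem isNorm_castJq {ℓ q : ℕ} [Fact ℓ.Prime] [Fact q.Prime] (h : ℓ = q) {H : Subgroup (GalL L)}
    (N : Subgroup H) [Fintype (H ⧸ N)] {f : (Jq ℓ L).V} (hf : NormPred.IsNorm H N (Jq ℓ L) f) :
    NormPred.IsNorm H N (Jq q L) (castJq h f) := by
  subst h
  exact hf

omit [FiniteDimensional ℚ L] in
/-- **(Q5)** if all local components above `q` are norms, so is `PhiQ q y`. -/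
theorem PhiQ_isNorm (q : ℕ) [Fact q.Prime] (N : Subgroup ↥(fixK L K hKL))
    [Fintype (↥(fixK L K hKL) ⧸ N)] (y : ∀ v : V ↥K, A D v)
    (h : ∀ v : HeightOneSpectrum (𝓞 K), D.ℓ v = q →
      NormPred.IsNorm (fixK L K hKL) N (Jq (D.ℓ v) L) (Phi hKL D v (y (Sum.inl v)))) :
    NormPred.IsNorm (fixK L K hKL) N (Jq q L) (PhiQ hKL D q y).toAdd := by
  rw [PhiQ_toAdd]
  refine NormPred.IsNorm.sum _ _ fun v hv => ?_
  have hq : D.ℓ v = q := (mem_above_iff D q v).mp hv
  rw [PhiAt_of_eq hKL D hq]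
  exact isNorm_castJq hq N (h v hq)

/-! ### (Q6) units -/

/-- the value of `PhiQ q y` at `g` is the value of the component at the place cut out by `g`. -/
theorem PhiQ_apply (q : ℕ) [Fact q.Prime] (y : ∀ v : V ↥K, A D v)
    {v : HeightOneSpectrum (𝓞 K)} (hq : D.ℓ v = q) {g : GalL L} (hg : InPl hKL D v g) :
    (PhiQ hKL D q y).toAdd.1 g =
      Additive.ofMul (castU hq (phi hKL D v (compAt D y v) g)) := by
  rw [PhiQ_toAdd, sum_PhiAt_apply hKL D q (above D q) (fun v => compAt D y v)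
    ((mem_above_iff D q v).mpr hq) hq hg, PhiAt_of_eq hKL D hq, castJq_apply]
  rfl

/-- **(Q6)** if `y` is a unit at all places above `q`, all values of `PhiQ q y` have norm one. -/
theorem norm_PhiQ_of_units (q : ℕ) [Fact q.Prime] (y : ∀ v : V ↥K, A D v)
    (h : ∀ v : HeightOneSpectrum (𝓞 K), D.ℓ v = q → y (Sum.inl v) ∈ unitBall D v) (g : GalL L) :
    ‖((Additive.toMul ((PhiQ hKL D q y).toAdd.1 g) : (PadicAlgCl q)ˣ) : PadicAlgCl q)‖ = 1 := by
  obtain ⟨v, hq, hg⟩ := exists_inPl_of_prime hKL D q g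
  rw [PhiQ_apply hKL D q y hq hg]
  change ‖((castU hq (phi hKL D v (compAt D y v) g) : (PadicAlgCl q)ˣ) : PadicAlgCl q)‖ = 1
  rw [norm_castU, norm_phi_of_inPl _ hg]
  exact (mem_unitBall_iff D v _).mp (h v hq)

end Fermat.Agent.S55.RelDict24
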