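/-
S55 / 32c-B (helper24): the IDEAL-SIDE twins of `PhiQ`: for a prime `ℓ` at which `L` is unramified
(`hφ : IdeleVal44.IsUnrAt ℓ (locHom ℓ L)`),
`ZQ hKL D ℓ hφ y := valZ (PhiQ hKL D ℓ y) ∈ Zq L ℓ` (the divisor above `ℓ` of the idele `y` of `K`,
as a divisor of `L`), with (Z1) invariance, (Z2) surjectivity onto the `Gal(L/K)`-invariants,
(Z3) vanishing on units, (Z4) principal ideles, (Z5) norms, (Z6) additivity.
-/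
import Mathlib
import Fermat.Prelude.Def_GaloisRep_CompletionBridge
import Fermat.Agent.S55.Idele73.Basic
import Fermat.Agent.S55.IdeleVal44.Val
import Fermat.Agent.S55.IdeleVal44.Ideal
import Fermat.Agent.S55.SecondInst53.PlaceModel
import Fermat.Agent.S55.SecondInst53.Assembly
import Fermat.Agent.S55.SecondInst53.NormPred
import Fermat.Agent.S55.RelDict24.PhiQ

set_option autoImplicit false

open scoped NNReal Pointwise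
open IsDedekindDomain NumberField

noncomputable section

namespace Fermat.Agent.S55.RelDict24

open Fermat.Agent.S55.Idele73.Basic Fermat.Agent.S55.PlaceCount50
open Fermat.Agent.S55.SecondInst53.PlaceModel Fermat.Agent.S55.SecondInst53.Assembly
open Fermat.Agent.S55.SecondInst53 Fermat.Agent.S55.IdeleVal44

variable {L : IntermediateField ℚ Qbar} [Normal ℚ L] [FiniteDimensional ℚ L]
variable {K : IntermediateField ℚ Qbar} [FiniteDimensional ℚ K] (hKL : K ≤ L)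
variable (D : PlaceData ↥K)

/-- the section `qPow` of `valZ` is equivariant. -/
theorem rho_qPow (ℓ : ℕ) [Fact ℓ.Prime] (s : GalL L) (f : (Zq L ℓ).V) :
    (Jq ℓ L).ρ s (qPow ℓ (locHom ℓ L) f) = qPow ℓ (locHom ℓ L) ((Zq L ℓ).ρ s f) := rfl

/-- the divisor above `ℓ` (in `L`) of an idele of `K`. -/
def ZQ (ℓ : ℕ) [Fact ℓ.Prime] (hφ : IsUnrAt ℓ (locHom ℓ L)) (y : ∀ v : V ↥K, A D v) :
    (Zq L ℓ).V :=
  (valZ ℓ (locHom ℓ L) hφ).hom (PhiQ hKL D ℓ y).toAdd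

/-- **(Z6)** additivity. -/
theorem ZQ_mul (ℓ : ℕ) [Fact ℓ.Prime] (hφ : IsUnrAt ℓ (locHom ℓ L)) (y y' : ∀ v : V ↥K, A D v) :
    ZQ hKL D ℓ hφ (y * y') = ZQ hKL D ℓ hφ y + ZQ hKL D ℓ hφ y' := by
  rw [ZQ, ZQ, ZQ, map_mul, toAdd_mul, map_add]

theorem ZQ_one (ℓ : ℕ) [Fact ℓ.Prime] (hφ : IsUnrAt ℓ (locHom ℓ L)) :
    ZQ hKL D ℓ hφ (1 : ∀ v : V ↥K, A D v) = 0 := by
  rw [ZQ, map_one, toAdd_one, map_zero]

/-- `ZQ` as a homomorphism. -/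
def ZQHom (ℓ : ℕ) [Fact ℓ.Prime] (hφ : IsUnrAt ℓ (locHom ℓ L)) :
    (∀ v : V ↥K, A D v) →* Multiplicative (Zq L ℓ).V where
  toFun y := Multiplicative.ofAdd (ZQ hKL D ℓ hφ y)
  map_one' := by
    rw [ZQ_one]
    rfl
  map_mul' y y' := by
    rw [ZQ_mul]
    rfl

/-- **(Z1)** `ZQ ℓ y` is fixed by `Gal(L/K)`. -/
theorem rho_ZQ (ℓ : ℕ) [Fact ℓ.Prime] (hφ : IsUnrAt ℓ (locHom ℓ L)) (y : ∀ v : V ↥K, A D v)
    {s : GalL L} (hs : s ∈ fixK L K hKL) : (Zq L ℓ).ρ s (ZQ hKL D ℓ hφ y) = ZQ hKL D ℓ hφ y := by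
  rw [ZQ, ← Rep.hom_comm_apply, rho_PhiQ hKL D ℓ y hs]

/-- **(Z4)** principal ideles. -/
theorem ZQ_diag (ℓ : ℕ) [Fact ℓ.Prime] (hφ : IsUnrAt ℓ (locHom ℓ L)) (c : (↥K)ˣ) :
    ZQ hKL D ℓ hφ (SecondIneq74.diag (A D) (ι D) c) =
      (valZ ℓ (locHom ℓ L) hφ).hom
        ((diag ℓ L).hom (Additive.ofMul (Units.map (incl L K hKL : ↥K →* ↥L) c))) := by
  rw [ZQ, PhiQ_diag]

/-- **(Z4')** locality. -/
theorem ZQ_congr (ℓ : ℕ) [Fact ℓ.Prime] (hφ : IsUnrAt ℓ (locHom ℓ L)) {y y' : ∀ v : V ↥K, A D v}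
    (h : ∀ v : HeightOneSpectrum (𝓞 K), D.ℓ v = ℓ → y (Sum.inl v) = y' (Sum.inl v)) :
    ZQ hKL D ℓ hφ y = ZQ hKL D ℓ hφ y' := by
  rw [ZQ, ZQ, PhiQ_congr hKL D ℓ h]

/-- **(Z3)** units have trivial divisor. -/
theorem ZQ_eq_zero_of_units (ℓ : ℕ) [Fact ℓ.Prime] (hφ : IsUnrAt ℓ (locHom ℓ L))
    (y : ∀ v : V ↥K, A D v)
    (h : ∀ v : HeightOneSpectrum (𝓞 K), D.ℓ v = ℓ → y (Sum.inl v) ∈ unitBall D v) :
    ZQ hKL D ℓ hφ y = 0 := by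
  rw [ZQ, ← mem_range_inclφ_iff_valZ, mem_range_inclφ_iff]
  intro g
  exact NNReal.eq (norm_PhiQ_of_units hKL D ℓ y h g)

/-- **(Z5)** norms. -/
theorem ZQ_isNorm (ℓ : ℕ) [Fact ℓ.Prime] (hφ : IsUnrAt ℓ (locHom ℓ L))
    (N : Subgroup ↥(fixK L K hKL)) [Fintype (↥(fixK L K hKL) ⧸ N)] (y : ∀ v : V ↥K, A D v)
    (h : ∀ v : HeightOneSpectrum (𝓞 K), D.ℓ v = ℓ →
      NormPred.IsNorm (fixK L K hKL) N (Jq (D.ℓ v) L) (Phi hKL D v (y (Sum.inl v)))) :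
    NormPred.IsNorm (fixK L K hKL) N (Zq L ℓ) (ZQ hKL D ℓ hφ y) :=
  (PhiQ_isNorm hKL D ℓ N y h).map (valZ ℓ (locHom ℓ L) hφ)

/-- **(Z2)** `ZQ ℓ` is onto the `Gal(L/K)`-invariants of `Zq L ℓ`, already on the ideles supported
at the places above `ℓ`. -/
theorem ZQ_surjective (ℓ : ℕ) [Fact ℓ.Prime] (hφ : IsUnrAt ℓ (locHom ℓ L)) (f : (Zq L ℓ).V)
    (hf : ∀ s ∈ fixK L K hKL, (Zq L ℓ).ρ s f = f) :
    ∃ y : ∀ v : V ↥K, A D v,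
      (∀ v : HeightOneSpectrum (𝓞 ↥K), D.ℓ v ≠ ℓ → y (Sum.inl v) = 1) ∧
      (∀ w, y (Sum.inr w) = 1) ∧ ZQ hKL D ℓ hφ y = f := by
  have hF : ∀ s ∈ fixK L K hKL,
      (Jq ℓ L).ρ s (qPow ℓ (locHom ℓ L) f) = qPow ℓ (locHom ℓ L) f := by
    intro s hs
    rw [rho_qPow, hf s hs]
  obtain ⟨y, hy1, hy2, hy3⟩ := PhiQ_surjective hKL D ℓ _ hF
  refine ⟨y, hy1, hy2, ?_⟩
  rw [ZQ, hy3, valZ_qPow]

end Fermat.Agent.S55.RelDict24
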